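import Fermat.Agent.A2.IF.H429.IF

/-!
# S36 ENGINE, leaf UNR (helper379): the inertia field is an unramified good level

`unr : A2.GoodField P (ℚ̄^{I_P}) ∧ ∀ e ∈ ℚ̄^{I_P}, e ∈ 𝔪_P → e / q ∈ P`, i.e. (unfolded)
`Eng.Unramified P (Eng.inertiaFld P) q` of `S36/Eng/Spec.lean`, hence `Eng.InertiaFieldStatement`
of `S36/Eng/Top.lean` is `fun q hq P hP => H379.unr q hq P hP`.

Everything is already on main in `A2/IF/H429`:
* `goodField_level q hq P hP ∅` with `level P ∅ = inertiaField P`;
* `exists_zpow_of_mem_inertiaField` (every nonzero element of the inertia field is a unit times a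
  power of `q`).
-/

set_option autoImplicit false

namespace Fermat.Agent.S36.H379

open Fermat.Agent.A2 Fermat.Agent.A2.IF.H429

/-- The good level attached to the empty set is the inertia field itself. -/
theorem level_empty (P : ValuationSubring Qb) : level P ∅ = inertiaField P := by
  refine le_antisymm ?_ (inertiaField_le_level P ∅)
  intro x hx
  rw [mem_level_iff] at hx
  have hS : conjSet (∅ : Finset Qb) = ∅ := by
    ext y
    rw [mem_conjSet_iff]
    simp
  unfold level₁ at hx
  rw [hS, IntermediateField.adjoin_empty, IntermediateField.mem_bot] at hx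
  obtain ⟨y, rfl⟩ := hx
  exact y.2

/-- The inertia field is a good level. -/
theorem goodField_inertiaField (q : ℕ) (hq : q.Prime) (P : ValuationSubring Qb)
    (hP : P.LiesOverPrime q) : GoodField P (inertiaField P) := by
  have h := goodField_level q hq P hP ∅
  rwa [level_empty] at h

/-- `q` is a uniformiser of the inertia field: an element of `ℚ̄^{I_P}` in the maximal ideal of
`P` is divisible by `q` in `P`. -/
theorem div_mem_of_mem_inertiaField (q : ℕ) (hq : q.Prime) (P : ValuationSubring Qb)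
    (hP : P.LiesOverPrime q) (e : Qb) (he : e ∈ inertiaField P) (heP : e ∈ P.nonunits) :
    e * ((q : Qb))⁻¹ ∈ P := by
  by_cases he0 : e = 0
  · rw [he0, zero_mul]
    exact P.zero_mem
  obtain ⟨k, hk⟩ := exists_zpow_of_mem_inertiaField P q hq hP e he he0
  have hq0 : (q : Qb) ≠ 0 := by exact_mod_cast hq.ne_zero
  have hvq : P.valuation (q : Qb) < 1 := (ValuationSubring.mem_nonunits_iff P).mp hP
  have hvq0 : P.valuation (q : Qb) ≠ 0 := (Valuation.ne_zero_iff _).mpr hq0
  have hve : P.valuation e < 1 := (ValuationSubring.mem_nonunits_iff P).mp heP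
  have hek : P.valuation e = P.valuation (q : Qb) ^ k := by
    rw [map_div₀, map_zpow₀] at hk
    exact (div_eq_one_iff_eq (zpow_ne_zero k hvq0)).mp hk
  have hk1 : 1 ≤ k := by
    by_contra h
    have hk0 : k ≤ 0 := by omega
    have h1 : (1 : ValuationSubring.ValueGroup P) ≤ P.valuation (q : Qb) ^ k := by
      obtain ⟨n, rfl⟩ : ∃ n : ℕ, k = -(n : ℤ) := ⟨(-k).toNat, by omega⟩
      rw [zpow_neg, zpow_natCast]
      exact (one_le_inv₀ (zero_lt_iff.mpr (pow_ne_zero n hvq0))).mpr (pow_le_one₀ zero_le hvq.le)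
    rw [← hek] at h1
    exact absurd hve (not_lt.mpr h1)
  rw [← ValuationSubring.valuation_le_one_iff, map_mul, map_inv₀, hek]
  obtain ⟨n, rfl⟩ : ∃ n : ℕ, k = (n : ℤ) + 1 := ⟨(k - 1).toNat, by omega⟩
  rw [zpow_add_one₀ hvq0, mul_assoc, mul_inv_cancel₀ hvq0, mul_one, zpow_natCast]
  exact pow_le_one₀ zero_le hvq.le

/-- **UNR** (unfolded form of `Eng.Unramified P (Eng.inertiaFld P) q`). -/
theorem unr (q : ℕ) (hq : q.Prime) (P : ValuationSubring Qb) (hP : P.LiesOverPrime q) :
    GoodField P (IntermediateField.fixedField (P.inertiaSubgroupIn ℚ)) ∧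
      ∀ e : (IntermediateField.fixedField (P.inertiaSubgroupIn ℚ) : IntermediateField ℚ Qb),
        (e : Qb) ∈ P.nonunits → (e : Qb) * ((q : Qb))⁻¹ ∈ P :=
  ⟨goodField_inertiaField q hq P hP,
    fun e he => div_mem_of_mem_inertiaField q hq P hP (e : Qb) e.2 he⟩

end Fermat.Agent.S36.H379
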